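import Fermat.Agent.AVn.Red
import Fermat.Agent.FunField.DegreeFormula

/-!
# S26 (kb 66), D3/D4: valuation rings nontrivial on a function field of one variable

If a valuation ring does not contain a function field `E / k` of one variable (`k` algebraically
closed), then points with values in `E` specialize to points with values in `k`.
-/

set_option autoImplicit false

noncomputable section

universe u

open IntermediateField

namespace Fermat.Agent.AVD3

open Fermat.Agent.BaseChangeFF Fermat.Agent.AVG Fermat.Agent.AVn Fermat.Agent.FunField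

section Field

variable {k E : Type*} [Field k] [Field E] [Algebra k E]

/-- a valuation subring containing a field over which everything is algebraic is trivial -/
theorem eq_top_of_adjoin_le {e : E} [Algebra.IsAlgebraic k⟮e⟯ E] (W : ValuationSubring E)
    (h : ∀ x ∈ k⟮e⟯, x ∈ W) (z : E) : z ∈ W := by
  let φ : k⟮e⟯ →+* W :=
    { toFun := fun x => ⟨x, h x x.2⟩
      map_one' := rfl
      map_mul' := fun _ _ => rfl
      map_zero' := rfl
      map_add' := fun _ _ => rfl }
  have hz : IsIntegral k⟮e⟯ z := (Algebra.IsAlgebraic.isAlgebraic z).isIntegral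
  obtain ⟨p, hp, hpz⟩ := hz
  have h1 : IsIntegral W z := by
    refine ⟨p.map φ, hp.map φ, ?_⟩
    rw [Polynomial.eval₂_map]
    exact hpz
  obtain ⟨w, hw⟩ := (IsIntegrallyClosed.isIntegral_iff (R := W) (K := E)).mp h1
  rw [← hw]
  exact w.2

end Field

section Residue

variable {k E Ω κ : Type*} [Field k] [IsAlgClosed k] [Field E] [Algebra k E]
  [Field Ω] [Algebra k Ω] [Field κ] [Algebra k κ] [IsFF k E]

/-- residues of elements of a function field of one variable on which the valuation is
nontrivial are constants -/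
theorem exists_residue (O : ValuationSubring Ω) (π : O →+* κ)
    (hker : ∀ a : O, π a = 0 ↔ ¬ IsUnit a)
    (hk : ∀ c : k, algebraMap k Ω c ∈ O)
    (hkπ : ∀ c : k, π ⟨algebraMap k Ω c, hk c⟩ = algebraMap k κ c) (i : E →ₐ[k] Ω)
    (h : ∃ e : E, i e ∉ O) (e : E) (he : i e ∈ O) :
    ∃ c : k, algebraMap k κ c = π ⟨i e, he⟩ := by
  apply mem_range_algebraMap_of_isAlgebraic
  by_contra htr
  -- polynomials in `e`
  have hpol : ∀ p : Polynomial k, ∃ hp : i (Polynomial.aeval e p) ∈ O,
      π ⟨i (Polynomial.aeval e p), hp⟩ = Polynomial.aeval (π ⟨i e, he⟩) p := by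
    intro p
    induction p using Polynomial.induction_on' with
    | add p q hp hq =>
      obtain ⟨hp1, hp2⟩ := hp
      obtain ⟨hq1, hq2⟩ := hq
      have hm : i (Polynomial.aeval e (p + q)) ∈ O := by
        rw [map_add, map_add]; exact O.add_mem _ _ hp1 hq1
      refine ⟨hm, ?_⟩
      have e2 : (⟨i (Polynomial.aeval e (p + q)), hm⟩ : O) =
          ⟨i (Polynomial.aeval e p), hp1⟩ + ⟨i (Polynomial.aeval e q), hq1⟩ := by
        apply Subtype.ext
        show i (Polynomial.aeval e (p + q)) = i (Polynomial.aeval e p) + i (Polynomial.aeval e q)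
        rw [map_add, map_add]
      rw [e2, map_add, hp2, hq2, map_add]
    | monomial n a =>
      have e1 : i (Polynomial.aeval e (Polynomial.monomial n a)) =
          algebraMap k Ω a * (i e) ^ n := by
        rw [Polynomial.aeval_monomial, map_mul, map_pow, AlgHom.commutes]
      have hm : i (Polynomial.aeval e (Polynomial.monomial n a)) ∈ O := by
        rw [e1]; exact O.mul_mem _ _ (hk a) (pow_mem he n)
      refine ⟨hm, ?_⟩
      have e2 : (⟨i (Polynomial.aeval e (Polynomial.monomial n a)), hm⟩ : O) =
          ⟨algebraMap k Ω a, hk a⟩ * ⟨i e, he⟩ ^ n := Subtype.ext e1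
      rw [e2, map_mul, map_pow, hkπ, Polynomial.aeval_monomial]
  have htr' : Transcendental k (π ⟨i e, he⟩) := htr
  have hinv : ∀ p : Polynomial k, p ≠ 0 → (i (Polynomial.aeval e p))⁻¹ ∈ O := by
    intro p hp
    obtain ⟨h1, h2⟩ := hpol p
    have h3 : π ⟨i (Polynomial.aeval e p), h1⟩ ≠ 0 := by
      rw [h2]
      intro h0
      exact hp ((transcendental_iff.mp htr') p h0)
    have h4 : IsUnit (⟨i (Polynomial.aeval e p), h1⟩ : O) := by
      by_contra h5
      exact h3 ((hker _).mpr h5)
    obtain ⟨⟨w, hw⟩, hw'⟩ := h4.exists_right_inv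
    have h5 : i (Polynomial.aeval e p) * w = 1 := congrArg Subtype.val hw'
    rw [inv_eq_of_mul_eq_one_right h5]
    exact hw
  have hadj : ∀ x ∈ k⟮e⟯, x ∈ O.comap (i : E →+* Ω) := by
    intro x hx
    rw [mem_adjoin_simple_iff] at hx
    obtain ⟨r, s, rfl⟩ := hx
    rw [ValuationSubring.mem_comap]
    show i (Polynomial.aeval e r / Polynomial.aeval e s) ∈ O
    rw [map_div₀, div_eq_mul_inv]
    by_cases hs : s = 0
    · rw [hs, map_zero, map_zero, inv_zero, mul_zero]; exact O.zero_mem
    · exact O.mul_mem _ _ (hpol r).1 (hinv s hs)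
  have hetr : Transcendental k e := by
    rw [transcendental_iff]
    intro p hp
    by_contra hp0
    obtain ⟨h1, h2⟩ := hpol p
    have h3 : π ⟨i (Polynomial.aeval e p), h1⟩ = 0 := by
      have : (⟨i (Polynomial.aeval e p), h1⟩ : O) = 0 := Subtype.ext (by
        show i (Polynomial.aeval e p) = 0
        rw [hp, map_zero])
      rw [this, map_zero]
    rw [h2] at h3
    exact hp0 ((transcendental_iff.mp htr') p h3)
  have hfin : FiniteDimensional k⟮e⟯ E := finiteDimensional_adjoin_of_isFF (K := k) hetr
  obtain ⟨z, hz⟩ := h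
  exact hz (eq_top_of_adjoin_le (k := k) (e := e) (O.comap (i : E →+* Ω)) hadj z)

end Residue

section Pt

variable {K : Type u} [Field K] {g : ℕ} (A : AVar K g)
variable {k E Ω κ : Type u} [Field k] [IsAlgClosed k] [Field E] [Algebra K k] [Algebra k E]
  [Algebra K E] [IsScalarTower K k E] [Field Ω] [Algebra k Ω] [Algebra K Ω] [IsScalarTower K k Ω]
  [Field κ] [Algebra k κ] [Algebra K κ] [IsScalarTower K k κ] [IsFF k E]
  (𝔯 : RDk K Ω κ) (hk : ∀ c : k, algebraMap k Ω c ∈ 𝔯.A)
  (hkπ : ∀ c : k, 𝔯.π ⟨algebraMap k Ω c, hk c⟩ = algebraMap k κ c) (i : E →ₐ[k] Ω)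
  (h : ∃ e : E, i e ∉ 𝔯.A)

include hkπ h in
/-- the place of `E / k` induced by a valuation ring not containing `E` -/
theorem exists_place_k : ∃ 𝔯₁ : RDk K E k, (∀ e : E, e ∈ 𝔯₁.A ↔ i e ∈ 𝔯.A) ∧
    ∀ (e : 𝔯₁.A) (he : i (e : E) ∈ 𝔯.A), 𝔯.π ⟨i e, he⟩ = algebraMap k κ (𝔯₁.π e) := by
  classical
  have hres : ∀ e : 𝔯.A.comap (i : E →+* Ω), ∃ c : k, algebraMap k κ c = 𝔯.π ⟨i e, e.2⟩ :=
    fun e => exists_residue 𝔯.A 𝔯.π 𝔯.ker hk hkπ i h e e.2
  have hinj : Function.Injective (algebraMap k κ) := (algebraMap k κ).injective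
  choose c hc using hres
  have hmem : ∀ x : k, algebraMap k E x ∈ 𝔯.A.comap (i : E →+* Ω) := by
    intro x
    rw [ValuationSubring.mem_comap]
    show i (algebraMap k E x) ∈ 𝔯.A
    rw [AlgHom.commutes]
    exact hk x
  let π₁ : 𝔯.A.comap (i : E →+* Ω) →+* k :=
    { toFun := c
      map_one' := hinj (by
        rw [hc, map_one]
        have : (⟨i ((1 : 𝔯.A.comap (i : E →+* Ω)) : E), (1 : 𝔯.A.comap (i : E →+* Ω)).2⟩ : 𝔯.A) = 1 :=
          Subtype.ext (map_one i)
        rw [this, map_one])
      map_mul' := fun a b => hinj (by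
        rw [map_mul, hc, hc, hc, ← map_mul]
        congr 1
        exact Subtype.ext (map_mul i _ _))
      map_zero' := hinj (by
        rw [hc, map_zero]
        have : (⟨i ((0 : 𝔯.A.comap (i : E →+* Ω)) : E), (0 : 𝔯.A.comap (i : E →+* Ω)).2⟩ : 𝔯.A) = 0 :=
          Subtype.ext (map_zero i)
        rw [this, map_zero])
      map_add' := fun a b => hinj (by
        rw [map_add, hc, hc, hc, ← map_add]
        congr 1
        exact Subtype.ext (map_add i _ _)) }
  have hπ₁ : ∀ x : k, π₁ ⟨algebraMap k E x, hmem x⟩ = x := by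
    intro x
    apply hinj
    show algebraMap k κ (c _) = _
    rw [hc, ← hkπ x]
    congr 1
    apply Subtype.ext
    exact i.commutes x
  refine ⟨{ A := 𝔯.A.comap (i : E →+* Ω)
            π := π₁
            mem := fun x => by
              rw [IsScalarTower.algebraMap_apply K k E]
              exact hmem _
            π_alg := fun x => by
              have h1 := hπ₁ (algebraMap K k x)
              refine Eq.trans ?_ h1
              congr 1
              exact Subtype.ext (IsScalarTower.algebraMap_apply K k E x)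
            surj := fun x => ⟨_, hπ₁ x⟩
            ker := fun a => by
              constructor
              · intro h0 hu
                have := hu.map π₁
                rw [h0] at this
                exact not_isUnit_zero this
              · intro hu
                apply hinj
                show algebraMap k κ (c a) = _
                rw [hc, map_zero, 𝔯.ker]
                intro hu'
                apply hu
                obtain ⟨⟨w, hw⟩, hw'⟩ := hu'.exists_right_inv
                have h1 : i (a : E) * w = 1 := congrArg Subtype.val hw'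
                have ha0 : (a : E) ≠ 0 := by
                  intro h0
                  rw [h0, map_zero, zero_mul] at h1
                  exact zero_ne_one h1
                have h2 : i ((a : E)⁻¹) = w := by
                  rw [map_inv₀]
                  exact inv_eq_of_mul_eq_one_right h1
                have h3 : (a : E)⁻¹ ∈ 𝔯.A.comap (i : E →+* Ω) := by
                  rw [ValuationSubring.mem_comap]
                  show i ((a : E)⁻¹) ∈ 𝔯.A
                  rw [h2]; exact hw
                exact IsUnit.of_mul_eq_one ⟨(a : E)⁻¹, h3⟩ (Subtype.ext (mul_inv_cancel₀ ha0)) }, ?_, ?_⟩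
  · intro e
    exact ValuationSubring.mem_comap
  · intro e he
    exact (hc e).symm

include hk hkπ h in
/-- points with values in `E` specialize to points with values in `k` -/
theorem exists_red_eq (P : A.Pt E) : ∃ z : A.Pt k,
    A.red 𝔯 (A.map (i.restrictScalars K) P) = A.map (IsScalarTower.toAlgHom K k κ) z := by
  obtain ⟨𝔯₁, h1, h2⟩ := exists_place_k 𝔯 hk hkπ i h
  refine ⟨A.red 𝔯₁ P, ?_⟩
  apply A.red_map
  intro x
  have hx : i (x : E) ∈ 𝔯.A := (h1 x).mp x.2
  exact ⟨hx, h2 x hx⟩

end Pt

end Fermat.Agent.AVD3
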