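import Fermat.Agent.AVD3.ZP
import Fermat.Agent.AVFin.LemmaZ

/-!
# S26 (kb 66), D3/D4: `top_or_top`

A valuation ring of `M(a)` containing `k(a)(f(y - a))` contains one of the two copies of `E`.
-/

set_option autoImplicit false

noncomputable section

universe u

open IntermediateField

namespace Fermat.Agent.AVD3

open Fermat.Agent.BaseChangeFF Fermat.Agent.AVG Fermat.Agent.AVn Fermat.Agent.FunField

variable {K : Type u} [Field K] {g : ℕ} (A : AVar K g)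
variable {k E Ω : Type u} [Field k] [IsAlgClosed k] [Field E] [Algebra K k] [Algebra k E]
  [Algebra K E] [IsScalarTower K k E] [Field Ω] [Algebra k Ω] [Algebra K Ω] [IsScalarTower K k Ω]
  [Algebra A.F Ω] [IsScalarTower K A.F Ω] [IsFF k E]

/-- a valuation ring containing `k(a)(f(y - a))`, `y = i₁ P + i₂ Q`, contains one of the two
copies of `E` -/
theorem top_or_top (htr : Algebra.trdeg k (adjoin k (Set.range (algebraMap A.F Ω))) = g)
    (i₁ i₂ : E →ₐ[k] Ω) (P Q : A.Pt E) (f : A.F) (V : ValuationSubring Ω) {y : A.Pt Ω}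
    (hy : y = A.map (i₁.restrictScalars K) P + A.map (i₂.restrictScalars K) Q)
    (hV : ∀ x ∈ A.kaf k Ω f y, x ∈ V)
    (hΦ : Transcendental (adjoin k (Set.range (algebraMap A.F Ω))) (A.ev (y - A.gpt Ω) f)) :
    (∀ e, i₁ e ∈ V) ∨ (∀ e, i₂ e ∈ V) := by
  by_contra hcon
  push Not at hcon
  obtain ⟨h1, h2⟩ := hcon
  have hk : ∀ c : k, algebraMap k Ω c ∈ V := fun c => hV _ ((A.kaf k Ω f y).algebraMap_mem c)
  have hF : ∀ c : A.F, algebraMap A.F Ω c ∈ V := fun c =>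
    hV _ (subset_adjoin k _ (Or.inr ⟨c, rfl⟩))
  obtain ⟨κ, _, _, _, _, _, _, 𝔯, rfl, hkπ, hFπ⟩ := exists_rdk A V hk hF
  obtain ⟨z₁, hz₁⟩ := exists_red_eq A 𝔯 hk hkπ i₁ h1 P
  obtain ⟨z₂, hz₂⟩ := exists_red_eq A 𝔯 hk hkπ i₂ h2 Q
  have hred : A.red 𝔯 y = A.map (IsScalarTower.toAlgHom K k κ) (z₁ + z₂) := by
    rw [hy, _root_.map_add, hz₁, hz₂, A.map_add]
  have := 𝔯.isLocalHom_πa
  refine AVFin.lemmaZ (κ' := κ) A htr 𝔯.A f y hV hΦ 𝔯.πa (fun c _ => hkπ c) (fun c _ => hFπ c)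
    (A.lft 𝔯 y) (A.map_lft 𝔯 y) ⊥ ?_ ?_ ?_
  · rw [trdeg_eq_zero (R := k) (A := (⊥ : IntermediateField k κ))]
    exact zero_le_one
  · intro x hx
    have h3 : A.fd (A.red 𝔯 y) ≤ (IsScalarTower.toAlgHom K k κ).fieldRange := by
      rw [hred, A.fd_map]
      rintro _ ⟨w, -, rfl⟩
      exact ⟨w, rfl⟩
    obtain ⟨c, hc⟩ := h3 hx
    rw [← hc]
    exact (⊥ : IntermediateField k κ).algebraMap_mem c
  · intro x hx
    obtain ⟨c, rfl⟩ := mem_bot.mp hx
    have h4 : algebraMap k κ c = algebraMap (adjoin k (Set.range (algebraMap A.F κ))) κ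
        (algebraMap k _ c) := rfl
    rw [h4]
    exact isAlgebraic_algebraMap _

end Fermat.Agent.AVD3
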