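import Fermat.Agent.AVD3.NT

/-!
# S26 (kb 66), D3/D4: zeros and poles of `u₁ - u₂`
-/

set_option autoImplicit false

noncomputable section

universe u

open IntermediateField

namespace Fermat.Agent.AVD3

open Fermat.Agent.BaseChangeFF Fermat.Agent.AVG Fermat.Agent.AVn Fermat.Agent.FunField

section Field

variable {k E Ω : Type*} [Field k] [IsAlgClosed k] [Field E] [Algebra k E]
  [Field Ω] [Algebra k Ω] [IsFF k E]

/-- residues of elements of a function field of one variable are constants, without mentioning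
the residue field -/
theorem exists_const (V : ValuationSubring Ω) (hk : ∀ c : k, algebraMap k Ω c ∈ V)
    (i : E →ₐ[k] Ω) (h : ∃ e : E, i e ∉ V) (e : E) (he : i e ∈ V) :
    ∃ c : k, V.valuation (i e - algebraMap k Ω c) < 1 := by
  letI : Algebra k (IsLocalRing.ResidueField V) :=
    ((IsLocalRing.residue V).comp ((algebraMap k Ω).codRestrict V.toSubring hk)).toAlgebra
  obtain ⟨c, hc⟩ := exists_residue (κ := IsLocalRing.ResidueField V) V (IsLocalRing.residue V)
    (fun a => by
      rw [IsLocalRing.residue_eq_zero_iff, IsLocalRing.mem_maximalIdeal, mem_nonunits_iff])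
    hk (fun c => rfl) i h e he
  refine ⟨c, ?_⟩
  have h1 : IsLocalRing.residue V (⟨i e, he⟩ - ⟨algebraMap k Ω c, hk c⟩) = 0 := by
    rw [map_sub, sub_eq_zero, ← hc]
    rfl
  rw [IsLocalRing.residue_eq_zero_iff, IsLocalRing.mem_maximalIdeal] at h1
  exact (V.valuation_lt_one_iff _).mp h1

theorem sub_algebraMap_mem {V : ValuationSubring Ω} {x : Ω} (hx : V.valuation x < 1)
    (hx0 : x ≠ 0) : x⁻¹ ∉ V := by
  intro h
  rw [← V.valuation_le_one_iff, map_inv₀] at h
  have h1 : V.valuation x ≠ 0 := (Valuation.ne_zero_iff _).mpr hx0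
  have h2 : V.valuation x * (V.valuation x)⁻¹ = 1 := mul_inv_cancel₀ h1
  have h3 : V.valuation x * (V.valuation x)⁻¹ ≤ V.valuation x * 1 := mul_le_mul_right h _
  rw [h2, mul_one] at h3
  exact absurd h3 (not_le.mpr hx)

variable {u : E} (hu : Transcendental k u) (V : ValuationSubring Ω)
  (hk : ∀ c : k, algebraMap k Ω c ∈ V) (i₁ i₂ : E →ₐ[k] Ω)

include hu hk in
/-- at a zero of `u₁ - u₂`, if the first copy of `E` is in the valuation ring so is the second -/
theorem mem_of_zero (hlam : V.valuation (i₁ u - i₂ u) < 1) (h₁ : ∀ e, i₁ e ∈ V) :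
    ∀ e, i₂ e ∈ V := by
  by_contra h
  push Not at h
  have h2u : i₂ u ∈ V := by
    have : i₂ u = i₁ u - (i₁ u - i₂ u) := by ring
    rw [this]
    exact sub_mem (h₁ u) ((V.valuation_le_one_iff _).mp hlam.le)
  obtain ⟨c, hc⟩ := exists_const V hk i₂ h u h2u
  have h3 : V.valuation (i₁ u - algebraMap k Ω c) < 1 := by
    have : i₁ u - algebraMap k Ω c = (i₁ u - i₂ u) + (i₂ u - algebraMap k Ω c) := by ring
    rw [this]
    exact Valuation.map_add_lt _ hlam hc
  have hne : u - algebraMap k E c ≠ 0 := by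
    intro h0
    exact hu (by rw [sub_eq_zero.mp h0]; exact isAlgebraic_algebraMap c)
  have h4 : i₁ (u - algebraMap k E c) = i₁ u - algebraMap k Ω c := by
    rw [map_sub, AlgHom.commutes]
  have h5 : (i₁ u - algebraMap k Ω c)⁻¹ ∈ V := by
    rw [← h4, ← map_inv₀]
    exact h₁ _
  refine sub_algebraMap_mem h3 ?_ h5
  rw [← h4]
  exact (map_ne_zero_iff i₁ i₁.injective).mpr hne

include hu hk in
/-- **Zeros**: at a zero of `u₁ - u₂` both copies of `E` are in the valuation ring. -/
theorem zeros_mem (htt : (∀ e, i₁ e ∈ V) ∨ (∀ e, i₂ e ∈ V))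
    (hlam : V.valuation (i₁ u - i₂ u) < 1) : (∀ e, i₁ e ∈ V) ∧ (∀ e, i₂ e ∈ V) := by
  rcases htt with h | h
  · exact ⟨h, mem_of_zero hu V hk i₁ i₂ hlam h⟩
  · refine ⟨mem_of_zero hu V hk i₂ i₁ ?_ h, h⟩
    rw [← Valuation.map_neg, neg_sub]
    exact hlam

omit [IsAlgClosed k] [IsFF k E] in
/-- **Poles**: at a pole of `u₁ - u₂` exactly one copy of `E` is in the valuation ring, and `u` is
not in the valuation ring for the other copy. -/
theorem poles_mem (htt : (∀ e, i₁ e ∈ V) ∨ (∀ e, i₂ e ∈ V)) (hlam : i₁ u - i₂ u ∉ V) :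
    ((∀ e, i₁ e ∈ V) ∧ i₂ u ∉ V) ∨ ((∀ e, i₂ e ∈ V) ∧ i₁ u ∉ V) := by
  rcases htt with h | h
  · exact Or.inl ⟨h, fun h2 => hlam (sub_mem (h u) h2)⟩
  · exact Or.inr ⟨h, fun h2 => hlam (sub_mem h2 (h u))⟩

end Field

section RDk

variable {K : Type u} [Field K] {g : ℕ} (A : AVar K g)
variable {k Ω : Type u} [Field k] [Field Ω] [Algebra K k]
  [Algebra k Ω] [Algebra K Ω] [IsScalarTower K k Ω] [Algebra A.F Ω] [IsScalarTower K A.F Ω]

/-- a valuation ring containing `k` and `F`, as valuation ring with residue field -/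
theorem exists_rdk (V : ValuationSubring Ω) (hk : ∀ c : k, algebraMap k Ω c ∈ V)
    (hF : ∀ x : A.F, algebraMap A.F Ω x ∈ V) :
    ∃ (κ : Type u) (_ : Field κ) (_ : Algebra K κ) (_ : Algebra k κ) (_ : IsScalarTower K k κ)
      (_ : Algebra A.F κ) (_ : IsScalarTower K A.F κ) (𝔯 : RDk K Ω κ) (hV : 𝔯.A = V),
      (∀ c : k, 𝔯.π ⟨algebraMap k Ω c, hV ▸ hk c⟩ = algebraMap k κ c) ∧
      (∀ x : A.F, 𝔯.π ⟨algebraMap A.F Ω x, hV ▸ hF x⟩ = algebraMap A.F κ x) := by
  let κ := IsLocalRing.ResidueField V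
  letI i1 : Algebra k κ :=
    ((IsLocalRing.residue V).comp ((algebraMap k Ω).codRestrict V.toSubring hk)).toAlgebra
  letI i2 : Algebra A.F κ :=
    ((IsLocalRing.residue V).comp ((algebraMap A.F Ω).codRestrict V.toSubring hF)).toAlgebra
  letI i3 : Algebra K κ := ((algebraMap k κ).comp (algebraMap K k)).toAlgebra
  have i4 : IsScalarTower K k κ := IsScalarTower.of_algebraMap_eq fun _ => rfl
  have hcomm : ∀ c : K, algebraMap k Ω (algebraMap K k c) = algebraMap A.F Ω (algebraMap K A.F c) :=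
    fun c => by rw [← IsScalarTower.algebraMap_apply, ← IsScalarTower.algebraMap_apply]
  have i5 : IsScalarTower K A.F κ := IsScalarTower.of_algebraMap_eq fun c => by
    show IsLocalRing.residue V ⟨algebraMap k Ω (algebraMap K k c), _⟩ =
      IsLocalRing.residue V ⟨algebraMap A.F Ω (algebraMap K A.F c), _⟩
    congr 1
    exact Subtype.ext (hcomm c)
  let 𝔯 : RDk K Ω κ :=
    { A := V
      π := IsLocalRing.residue V
      mem := fun c => by
        rw [IsScalarTower.algebraMap_apply K k Ω]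
        exact hk _
      π_alg := fun c => by
        show IsLocalRing.residue V ⟨algebraMap K Ω c, _⟩ =
          IsLocalRing.residue V ⟨algebraMap k Ω (algebraMap K k c), _⟩
        congr 1
        exact Subtype.ext (IsScalarTower.algebraMap_apply K k Ω c)
      surj := IsLocalRing.residue_surjective
      ker := fun a => by
        rw [IsLocalRing.residue_eq_zero_iff, IsLocalRing.mem_maximalIdeal, mem_nonunits_iff] }
  exact ⟨κ, inferInstance, i3, i1, i4, i2, i5, 𝔯, rfl, fun _ => rfl, fun _ => rfl⟩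

end RDk

end Fermat.Agent.AVD3
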