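import Fermat.Agent.AVD3.Top
import Fermat.Agent.AVD4.EqO
import Fermat.Agent.AVH.BC

/-!
# S26 (kb 66), D3: the zeros of `u₁ - u₂`
-/

set_option autoImplicit false

noncomputable section

universe u

open IntermediateField

namespace Fermat.Agent.AVD3

open Fermat.Agent.BaseChangeFF Fermat.Agent.AVG Fermat.Agent.AVn Fermat.Agent.FunField

variable {K : Type u} [Field K] {g : ℕ} (A : AVar K g)

variable {k E M Ma : Type u} (Ea : Type u) [Field k] [IsAlgClosed k] [Field E] [Field M]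
  [Field Ma] [Field Ea]
  [Algebra K k] [Algebra k E] [Algebra K E] [IsScalarTower K k E]
  [Algebra k M] [Algebra K M] [IsScalarTower K k M]
  [Algebra E M] [Algebra (Cp E) M] [IsScalarTower k E M] [IsScalarTower k (Cp E) M]
  [IsScalarTower K E M] [IsScalarTower K (Cp E) M] [BC k E (Cp E) M]
  [Algebra M Ma] [Algebra A.F Ma] [Algebra K Ma] [IsScalarTower K M Ma] [IsScalarTower K A.F Ma]
  [BC K M A.F Ma] [Algebra k Ma] [IsScalarTower k M Ma]
  [Algebra E Ea] [Algebra A.F Ea] [Algebra K Ea] [IsScalarTower K E Ea] [IsScalarTower K A.F Ea]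
  [BC K E A.F Ea]

section

variable {u : E} (hu : Transcendental k u) [FiniteDimensional k⟮u⟯ E] (P Q : A.Pt E) (f : A.F)
  (V : ValuationSubring Ma) {y : A.Pt M}
  (hy : y = A.map (IsScalarTower.toAlgHom K E M) P +
    A.map (IsScalarTower.toAlgHom K (Cp E) M) (A.map ((Cp.equiv K E).toAlgHom) Q))
  (hV : ∀ x ∈ A.kaf k Ma f (A.map (IsScalarTower.toAlgHom K M Ma) y), x ∈ V)
  (hΦ : Transcendental (adjoin k (Set.range (algebraMap A.F Ma)))
    (A.ev (A.map (IsScalarTower.toAlgHom K M Ma) y - A.gpt Ma) f))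

omit [BC k E (Cp E) M] in
include hu hy hV hΦ in
/-- `top_or_top` in the setting of the S26 table -/
theorem top_or_top' : (∀ e : E, algebraMap M Ma (algebraMap E M e) ∈ V) ∨
    (∀ e : Cp E, algebraMap M Ma (algebraMap (Cp E) M e) ∈ V) := by
  have hKkMa : IsScalarTower K k Ma := IsScalarTower.of_algebraMap_eq fun c => by
    rw [IsScalarTower.algebraMap_apply k M Ma, ← IsScalarTower.algebraMap_apply K k M,
      ← IsScalarTower.algebraMap_apply K M Ma]
  haveI : IsFF k E := ⟨⟨u, hu, inferInstance⟩⟩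
  refine top_or_top A (AVD4.trdeg_ka A k M)
    ((IsScalarTower.toAlgHom k M Ma).comp (AVH.i1 k E M))
    ((IsScalarTower.toAlgHom k M Ma).comp (AVH.i2 k E M)) P Q f V ?_ hV hΦ
  rw [hy, A.map_add, ← A.map_comp, ← A.map_comp, ← A.map_comp]
  rfl

variable [IsGalois k⟮u⟯ E]

include hy hV hΦ in
/-- **D3**: the zeros of `u₁ - u₂` among the valuation rings of `M(a)` containing `k(a)(Φ)` -/
theorem exists_eq_rz_O (hlam : V.valuation (algebraMap M Ma (AVH.lamM M u)) < 1) :
    ∃ s, V = (AVH.rz K M hu s).O A.F Ma Ea := by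
  haveI : IsFF k E := ⟨⟨u, hu, inferInstance⟩⟩
  have hk : ∀ c : k, algebraMap k Ma c ∈ V := fun c => hV _ (IntermediateField.algebraMap_mem _ c)
  have htt := top_or_top' A hu P Q f V hy hV hΦ
  have hz := zeros_mem hu V hk ((IsScalarTower.toAlgHom k M Ma).comp (AVH.i1 k E M))
    ((IsScalarTower.toAlgHom k M Ma).comp (AVH.i2 k E M)) htt (by
      have : (IsScalarTower.toAlgHom k M Ma).comp (AVH.i1 k E M) u -
          (IsScalarTower.toAlgHom k M Ma).comp (AVH.i2 k E M) u =
          algebraMap M Ma (AVH.lamM M u) := (map_sub (algebraMap M Ma) _ _).symm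
      rw [this]
      exact hlam)
  obtain ⟨s, hs⟩ := AVH.exists_eq_rz K hu (U := V.comap (algebraMap M Ma))
    (fun x => hz.1 x) (fun x => hz.2 x) (by
      intro h
      have h0 : algebraMap M Ma (AVH.lamM M u) ≠ 0 := by
        intro h0
        have h1 : AVH.lamM M u = 0 := (map_eq_zero _).mp h0
        have s0 : E ≃ₐ[k⟮u⟯] E := AlgEquiv.refl
        have h2 := AVH.rz_irreducible (K := K) (M := M) hu s0
        exact h2.ne_zero (Subtype.ext h1)
      refine sub_algebraMap_mem hlam h0 ?_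
      rw [ValuationSubring.mem_comap, map_inv₀] at h
      exact h)
  exact ⟨s, AVD4.eq_O_of_comap A Ea hu (AVH.rz K M hu s)
    (fun c => ⟨AVH.rz_mem_alg hu s c, AVH.rz_π_alg hu s c⟩) y f V hV hΦ hs⟩

include hy hV hΦ in
/-- **D3**, without valuations -/
theorem exists_eq_rz_O' (hlam : (algebraMap M Ma (AVH.lamM M u))⁻¹ ∉ V) :
    ∃ s, V = (AVH.rz K M hu s).O A.F Ma Ea := by
  refine exists_eq_rz_O A Ea hu P Q f V hy hV hΦ ?_
  have h0 : algebraMap M Ma (AVH.lamM M u) ≠ 0 := by
    intro h0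
    rw [h0, inv_zero] at hlam
    exact hlam V.zero_mem
  by_contra hlt
  apply hlam
  rw [← V.valuation_le_one_iff, map_inv₀]
  exact inv_le_one_of_one_le₀ (not_lt.mp hlt)

end

end Fermat.Agent.AVD3
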